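import Mathlib
import Fermat.Agent.S28.H868.Interface

/-!
# S28 (Igusa), route #1105, leaf [H1] of `H868/Final.lean` (helper347)

Transport of integrality from `K((t))` (`K = Frac O`) to `ℂ((t))` along a coefficient embedding
`emb : O → ℂ`.

The statement `isIntegralElem_polyC` is the skeleton statement of `H868.isIntegralElem_polyC`
with the skeleton definitions `polySer`, `polyC`, `iotaK`, `jT` unfolded
(`jT R N = qExpand R N (jqModC R)`), so that it applies by `exact`.
-/

set_option autoImplicit false

noncomputable section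

namespace Fermat.Agent.S28.H347

open ModularCurve HahnSeries

/-- `coeffMap` commutes with `qExpand` (local copy, elementary). -/
theorem coeffMap_qExpand_apply {R S : Type*} [CommRing R] [CommRing S] (f : R →+* S) (N : ℕ)
    [NeZero N] (x : LaurentSeries R) :
    coeffMap f (qExpand R N x) = qExpand S N (coeffMap f x) := by
  ext k
  by_cases hk : (N : ℤ) ∣ k
  · obtain ⟨m, rfl⟩ := hk
    simp
  · rw [coeffMap_coeff, qExpand_coeff_of_not_dvd N _ hk, qExpand_coeff_of_not_dvd N _ hk,
      map_zero]

/-- `coeffMap` of a constant. -/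
theorem coeffMap_C_apply {R S : Type*} [CommRing R] [CommRing S] (f : R →+* S) (r : R) :
    coeffMap f (HahnSeries.C r : LaurentSeries R) = HahnSeries.C (f r) := by
  change coeffMap f (HahnSeries.single 0 r) = HahnSeries.single 0 (f r)
  exact coeffMap_single f 0 r

/-- `coeffMap f (j(t^N)) = j(t^N)`. -/
theorem coeffMap_jT {R S : Type*} [CommRing R] [CommRing S] (f : R →+* S) (N : ℕ) [NeZero N] :
    coeffMap f (qExpand R N (jqModC R)) = qExpand S N (jqModC S) := by
  rw [coeffMap_qExpand_apply, coeffMap_jqModC]

/-- Integrality is preserved by ring homomorphisms (in the form we need). -/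
theorem isIntegralElem_of_comp {A B C : Type*} [CommRing A] [CommRing B] [CommRing C]
    (f : A →+* B) (g : B →+* C) (f' : A →+* C) (hfg : g.comp f = f') {x : B}
    (hx : f.IsIntegralElem x) : f'.IsIntegralElem (g x) := by
  obtain ⟨p, hp, hpx⟩ := hx
  refine ⟨p, hp, ?_⟩
  rw [← hfg, ← Polynomial.hom_eval₂, hpx, map_zero]

/-- **Leaf [H1].**  Transport of integrality from `K((t))` to `ℂ((t))`. -/
theorem isIntegralElem_polyC {N : ℕ} [NeZero N] {O : Type} [CommRing O] [IsDomain O]
    {K : Type} [Field K] [Algebra O K] [IsFractionRing O K] [CharZero K]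
    (emb : O →+* ℂ) (hemb : Function.Injective emb) (inf : Bool) (y : LaurentSeries ℚ)
    (h : (Polynomial.eval₂RingHom ((HahnSeries.C (Γ := ℤ) (R := K)).comp (algebraMap O K))
        (if inf then (qExpand K N (jqModC K))⁻¹ else qExpand K N (jqModC K))).IsIntegralElem
      (((qExpand K N).comp (coeffMap (algebraMap ℚ K))) y)) :
    (Polynomial.eval₂RingHom ((HahnSeries.C (Γ := ℤ) (R := ℂ)).comp emb)
        (if inf then (qExpand ℂ N (jqModC ℂ))⁻¹ else qExpand ℂ N (jqModC ℂ))).IsIntegralElem
      (iotaN N y) := by
  -- the field embedding `σ : K → ℂ` extending `emb`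
  let σ : K →+* ℂ := IsFractionRing.lift hemb
  have hσ : ∀ a : O, σ (algebraMap O K a) = emb a := fun a => IsFractionRing.lift_algebraMap hemb a
  have hσQ : σ.comp (algebraMap ℚ K) = algebraMap ℚ ℂ := Subsingleton.elim _ _
  -- the image of `y`
  have hy : coeffMap σ (((qExpand K N).comp (coeffMap (algebraMap ℚ K))) y) = iotaN N y := by
    simp only [RingHom.comp_apply, iotaN]
    rw [coeffMap_qExpand_apply, coeffMap_coeffMap, hσQ]
  rw [← hy]
  refine isIntegralElem_of_comp _ (coeffMap σ) _ ?_ h
  apply Polynomial.ringHom_ext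
  · intro a
    simp only [RingHom.comp_apply, Polynomial.coe_eval₂RingHom, Polynomial.eval₂_C]
    rw [coeffMap_C_apply, hσ]
  · simp only [RingHom.comp_apply, Polynomial.coe_eval₂RingHom, Polynomial.eval₂_X]
    cases inf
    · simp only [Bool.false_eq_true, if_false]
      exact coeffMap_jT σ N
    · simp only [if_true]
      rw [map_inv₀, coeffMap_jT σ N]

end Fermat.Agent.S28.H347
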