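import Mathlib
import Fermat.Agent.S28.H347.Transport

/-!
# S28 (Igusa), route #1105, leaf [H2] of `H868/Final.lean` (helper347)

Descent of integrality: a Laurent series `y ∈ ℚ((q))` such that `ℓ y` is integral over
`ℤ_(ℓ)[j^{±1}]` and such that `y` is integral over `O[j^{±1}]` (inside `ℂ((t))`, `t = q^{1/N}`) for
every discrete valuation ring `O ⊂ ℂ` containing `ℤ[ζ_N, 1/N]` in which `ℓ` is not a unit, is
integral over `ℤ_(ℓ)[j^{±1}]`.

Proof: `R = 𝓞 (ℚ(ζ_N))`, `σ : R → ℂ`.  The set `J = {s ∈ R : σ(s) y integral over ℤ_(ℓ)[j^{±1}]}`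
is an ideal of `R` containing `ℓ`.  If `J ≠ ⊤`, pick a maximal ideal `𝔪 ⊇ J`; the localisation
`R_𝔪` is a discrete valuation ring satisfying all the hypotheses, so `y` is integral over
`R_𝔪[j^{±1}]`; clearing denominators gives `s ∈ R ∖ 𝔪` with `σ(s) y` integral over `R[j^{±1}]`,
hence over `ℤ[j^{±1}]`, i.e. `s ∈ J ⊆ 𝔪`, a contradiction.
-/

set_option autoImplicit false
set_option linter.style.haveILetI false

noncomputable section

namespace Fermat.Agent.S28.H347

open ModularCurve HahnSeries

/-! ### Generalities on `RingHom.IsIntegralElem` -/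

/-- Transitivity of integrality, in `RingHom` form: a `g`-integral element is `f`-integral as soon
as the whole image of `g` is `f`-integral. -/
theorem isIntegralElem_trans_of_range {A B C : Type*} [CommRing A] [CommRing B] [CommRing C]
    (f : A →+* C) (g : B →+* C) (hg : ∀ b, f.IsIntegralElem (g b)) {z : C}
    (hz : g.IsIntegralElem z) : f.IsIntegralElem z := by
  letI : Algebra A C := f.toAlgebra
  let 𝒜 : Subalgebra A C := integralClosure A C
  have hg' : ∀ b, g b ∈ 𝒜.toSubring := fun b => hg b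
  let g' : B →+* 𝒜.toSubring := g.codRestrict 𝒜.toSubring hg'
  obtain ⟨p, hp, hpz⟩ := hz
  have h1 : IsIntegral 𝒜 z := by
    refine ⟨p.map g', hp.map _, ?_⟩
    rw [Polynomial.eval₂_map]
    have : (algebraMap (↥𝒜) C).comp g' = g := by
      ext b
      rfl
    rw [this]
    exact hpz
  exact isIntegral_trans (R := A) (A := 𝒜) z h1

/-- Integrality descends along an injective ring homomorphism. -/
theorem isIntegralElem_of_injective_comp {A B C : Type*} [CommRing A] [CommRing B] [CommRing C]
    (f : A →+* B) (g : B →+* C) (hg : Function.Injective g) {x : B}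
    (hx : (g.comp f).IsIntegralElem (g x)) : f.IsIntegralElem x := by
  obtain ⟨p, hp, hpx⟩ := hx
  refine ⟨p, hp, hg ?_⟩
  rw [Polynomial.hom_eval₂, hpx, map_zero]

/-- The image of `eval₂ f x` is integral as soon as `x` and the image of `f` are. -/
theorem isIntegralElem_eval₂ {A B C : Type*} [CommRing A] [CommRing B] [CommRing C]
    (φ : A →+* C) (f : B →+* C) (x : C) (hf : ∀ b, φ.IsIntegralElem (f b))
    (hx : φ.IsIntegralElem x) (p : Polynomial B) : φ.IsIntegralElem (Polynomial.eval₂ f x p) := by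
  induction p using Polynomial.induction_on' with
  | add p q hp hq =>
    rw [Polynomial.eval₂_add]
    exact RingHom.IsIntegralElem.add φ hp hq
  | monomial n a =>
    rw [Polynomial.eval₂_monomial]
    refine RingHom.IsIntegralElem.mul φ (hf a) ?_
    induction n with
    | zero =>
      rw [pow_zero]
      exact φ.isIntegralElem_one
    | succ n ih =>
      rw [pow_succ]
      exact RingHom.IsIntegralElem.mul φ ih hx

/-- Clearing denominators in an integrality relation over a polynomial ring with coefficients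
in a localisation. -/
theorem exists_isIntegralElem_mul_of_isLocalization {R O C : Type*} [CommRing R] [CommRing O]
    [CommRing C] [Algebra R O] (Msub : Submonoid R) [IsLocalization Msub O]
    (g : Polynomial O →+* C) {z : C} (hz : g.IsIntegralElem z) :
    ∃ s ∈ Msub, (g.comp (Polynomial.mapRingHom (algebraMap R O))).IsIntegralElem
      (g (Polynomial.C (algebraMap R O s)) * z) := by
  letI : Algebra (Polynomial R) (Polynomial O) := Polynomial.algebra R O
  letI : Algebra (Polynomial O) C := g.toAlgebra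
  letI : Algebra (Polynomial R) C :=
    (g.comp (Polynomial.mapRingHom (algebraMap R O))).toAlgebra
  haveI : IsScalarTower (Polynomial R) (Polynomial O) C :=
    IsScalarTower.of_algebraMap_eq (fun _ => rfl)
  haveI : IsLocalization (Msub.map (Polynomial.C : R →+* Polynomial R)) (Polynomial O) :=
    Polynomial.isLocalization Msub O
  obtain ⟨⟨m, s, hs, rfl⟩, hm⟩ :=
    IsIntegral.exists_multiple_integral_of_isLocalization
      (Msub.map (Polynomial.C : R →+* Polynomial R)) z hz
  refine ⟨s, hs, ?_⟩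
  have h2 : (⟨Polynomial.C s, s, hs, rfl⟩ : Msub.map (Polynomial.C : R →+* Polynomial R)) • z =
      g (Polynomial.C (algebraMap R O s)) * z := by
    rw [Submonoid.smul_def, Algebra.smul_def]
    congr 1
    show g (Polynomial.map (algebraMap R O) (Polynomial.C s)) = _
    rw [Polynomial.map_C]
  rw [h2] at hm
  exact hm

/-- A constant Laurent series whose constant is an algebraic integer is integral over any
subring. -/
theorem isIntegralElem_C_of_isIntegral {A : Type*} [CommRing A] (φ : A →+* LaurentSeries ℂ)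
    {z : ℂ} (hz : IsIntegral ℤ z) : φ.IsIntegralElem (HahnSeries.C z : LaurentSeries ℂ) := by
  obtain ⟨p, hp, hpz⟩ := hz
  refine ⟨p.map (Int.castRingHom A), hp.map _, ?_⟩
  rw [Polynomial.eval₂_map]
  have h1 : φ.comp (Int.castRingHom A) =
      (HahnSeries.C (Γ := ℤ) (R := ℂ)).comp (algebraMap ℤ ℂ) := Subsingleton.elim _ _
  rw [h1, ← Polynomial.hom_eval₂, hpz, map_zero]

/-! ### The descent -/

open NumberField in
/-- **Leaf [H2].**  Descent of integrality from the discrete valuation rings `O ⊂ ℂ` containing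
`ℤ[ζ_N, 1/N]` in which `ℓ` is not a unit to `ℤ_(ℓ)`.
(Statement of `H868.descent` with `polyQ`, `polyC`, `jT` unfolded.) -/
theorem descent {N : ℕ} [NeZero N] (ℓ : ℕ) [Fact ℓ.Prime] (hℓN : ¬ ℓ ∣ N) (inf : Bool)
    (y : LaurentSeries ℚ)
    (hℓy : (Polynomial.eval₂RingHom
        ((HahnSeries.C (Γ := ℤ) (R := ℚ)).comp (GaloisRep.ratLocalizedAt ℓ).subtype)
        (if inf then jq⁻¹ else jq)).IsIntegralElem ((ℓ : LaurentSeries ℚ) * y))
    (h : ∀ (O : Type) [CommRing O] [IsDomain O] [IsDiscreteValuationRing O] (emb : O →+* ℂ),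
      Function.Injective emb →
      Subring.closure ({Complex.exp (2 * Real.pi * Complex.I / N), (N : ℂ)⁻¹} : Set ℂ) ≤
        emb.range →
      (ℓ : O) ∈ IsLocalRing.maximalIdeal O →
      (Polynomial.eval₂RingHom ((HahnSeries.C (Γ := ℤ) (R := ℂ)).comp emb)
        (if inf then (qExpand ℂ N (jqModC ℂ))⁻¹ else qExpand ℂ N (jqModC ℂ))).IsIntegralElem
      (iotaN N y)) :
    (Polynomial.eval₂RingHom
        ((HahnSeries.C (Γ := ℤ) (R := ℚ)).comp (GaloisRep.ratLocalizedAt ℓ).subtype)
        (if inf then jq⁻¹ else jq)).IsIntegralElem y := by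
  classical
  have hℓprime : ℓ.Prime := Fact.out
  -- notation
  set J0 : LaurentSeries ℂ :=
    if inf then (qExpand ℂ N (jqModC ℂ))⁻¹ else qExpand ℂ N (jqModC ℂ) with hJ0
  set φQ : Polynomial ↥(GaloisRep.ratLocalizedAt ℓ) →+* LaurentSeries ℚ :=
    Polynomial.eval₂RingHom
      ((HahnSeries.C (Γ := ℤ) (R := ℚ)).comp (GaloisRep.ratLocalizedAt ℓ).subtype)
      (if inf then jq⁻¹ else jq) with hφQ
  have hι : Function.Injective (iotaN N) := (iotaN N).injective
  let φ : Polynomial ↥(GaloisRep.ratLocalizedAt ℓ) →+* LaurentSeries ℂ := (iotaN N).comp φQ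
  -- reduce to `φ`-integrality of `iotaN N y`
  apply isIntegralElem_of_injective_comp φQ (iotaN N) hι
  show φ.IsIntegralElem (iotaN N y)
  -- the image of `j^{±1}`
  have hιj : iotaN N jq = qExpand ℂ N (jqModC ℂ) := by
    simp only [iotaN, RingHom.comp_apply]
    rw [← jqModC_rat, coeffMap_jqModC]
  have hφX : φ Polynomial.X = J0 := by
    simp only [φ, hφQ, RingHom.comp_apply, Polynomial.coe_eval₂RingHom, Polynomial.eval₂_X, hJ0]
    cases inf
    · simp only [Bool.false_eq_true, if_false]
      exact hιj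
    · simp only [if_true]
      rw [map_inv₀, hιj]
  have hJ0int : φ.IsIntegralElem J0 := hφX ▸ φ.isIntegralElem_map
  -- the cyclotomic field and its ring of integers
  obtain ⟨σ⟩ : Nonempty (CyclotomicField N ℚ →+* ℂ) := inferInstance
  let σ1 : 𝓞 (CyclotomicField N ℚ) →+* ℂ :=
    σ.comp (algebraMap (𝓞 (CyclotomicField N ℚ)) (CyclotomicField N ℚ))
  have hσ1 : Function.Injective σ1 :=
    σ.injective.comp (FaithfulSMul.algebraMap_injective _ _)
  have hσ1int : ∀ r : 𝓞 (CyclotomicField N ℚ), IsIntegral ℤ (σ1 r) := fun r =>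
    map_isIntegral_int σ (NumberField.RingOfIntegers.isIntegral_coe r)
  -- the ideal `J`
  let Jid : Ideal (𝓞 (CyclotomicField N ℚ)) :=
    { carrier := {s | φ.IsIntegralElem (HahnSeries.C (σ1 s) * iotaN N y)}
      zero_mem' := by
        show φ.IsIntegralElem (HahnSeries.C (σ1 0) * iotaN N y)
        rw [map_zero, map_zero, zero_mul]
        exact φ.isIntegralElem_zero
      add_mem' := fun {a b} ha hb => by
        show φ.IsIntegralElem (HahnSeries.C (σ1 (a + b)) * iotaN N y)
        rw [map_add, map_add, add_mul]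
        exact RingHom.IsIntegralElem.add φ ha hb
      smul_mem' := fun r {s} hs => by
        show φ.IsIntegralElem (HahnSeries.C (σ1 (r * s)) * iotaN N y)
        rw [map_mul, map_mul, mul_assoc]
        exact RingHom.IsIntegralElem.mul φ (isIntegralElem_C_of_isIntegral φ (hσ1int r)) hs }
  have hJmem : ∀ s, s ∈ Jid ↔ φ.IsIntegralElem (HahnSeries.C (σ1 s) * iotaN N y) :=
    fun s => Iff.rfl
  have hℓJ : ((ℓ : ℕ) : 𝓞 (CyclotomicField N ℚ)) ∈ Jid := by
    rw [hJmem]
    have h1 : (HahnSeries.C (σ1 ((ℓ : ℕ) : 𝓞 (CyclotomicField N ℚ))) : LaurentSeries ℂ) *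
        iotaN N y = iotaN N ((ℓ : LaurentSeries ℚ) * y) := by
      rw [map_natCast, map_natCast, map_mul, map_natCast]
    rw [h1]
    exact isIntegralElem_of_comp φQ (iotaN N) φ rfl hℓy
  -- `J = ⊤`
  have htop : Jid = ⊤ := by
    by_contra hne
    obtain ⟨𝔪, hmax, hle⟩ := Ideal.exists_le_maximal Jid hne
    haveI := hmax.isPrime
    have hℓm : ((ℓ : ℕ) : 𝓞 (CyclotomicField N ℚ)) ∈ 𝔪 := hle hℓJ
    have hm0 : 𝔪 ≠ ⊥ := by
      intro h0
      rw [h0, Ideal.mem_bot] at hℓm
      exact hℓprime.ne_zero (by exact_mod_cast hℓm)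
    -- `N ∉ 𝔪`
    have hNm : ((N : ℕ) : 𝓞 (CyclotomicField N ℚ)) ∈ 𝔪.primeCompl := by
      intro hN
      have hcop : Nat.Coprime ℓ N := (Nat.Prime.coprime_iff_not_dvd hℓprime).mpr hℓN
      have hcop' : IsCoprime ((ℓ : ℕ) : ℤ) ((N : ℕ) : ℤ) := Nat.isCoprime_iff_coprime.mpr hcop
      obtain ⟨a, b, hab⟩ := hcop'
      have h1 : ((a : 𝓞 (CyclotomicField N ℚ)) * ((ℓ : ℕ) : 𝓞 (CyclotomicField N ℚ)) +
          (b : 𝓞 (CyclotomicField N ℚ)) * ((N : ℕ) : 𝓞 (CyclotomicField N ℚ))) = 1 := by
        have := congrArg (Int.cast : ℤ → 𝓞 (CyclotomicField N ℚ)) hab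
        push_cast at this
        exact this
      have h2 : (1 : 𝓞 (CyclotomicField N ℚ)) ∈ 𝔪 := by
        rw [← h1]
        exact 𝔪.add_mem (𝔪.mul_mem_left _ hℓm) (𝔪.mul_mem_left _ hN)
      exact hmax.ne_top ((Ideal.eq_top_iff_one 𝔪).mpr h2)
    -- the discrete valuation ring
    haveI : IsDomain (Localization.AtPrime 𝔪) :=
      IsLocalization.isDomain_localization 𝔪.primeCompl_le_nonZeroDivisors
    haveI : IsDiscreteValuationRing (Localization.AtPrime 𝔪) :=
      IsLocalization.AtPrime.isDiscreteValuationRing_of_dedekind_domain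
        (𝓞 (CyclotomicField N ℚ)) hm0 (Localization.AtPrime 𝔪)
    have hunit : ∀ s : 𝔪.primeCompl, IsUnit (σ1 s) := fun s =>
      IsUnit.mk0 _ (fun h0 => s.2 (by
        have := hσ1 (h0.trans (map_zero σ1).symm)
        rw [this]
        exact 𝔪.zero_mem))
    let emb : Localization.AtPrime 𝔪 →+* ℂ := IsLocalization.lift hunit
    have hemb_alg : ∀ r : 𝓞 (CyclotomicField N ℚ),
        emb (algebraMap _ (Localization.AtPrime 𝔪) r) = σ1 r :=
      fun r => IsLocalization.lift_eq hunit r
    have hemb : Function.Injective emb := by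
      rw [IsLocalization.lift_injective_iff]
      intro a b
      constructor
      · intro hab
        rw [IsLocalization.injective (Localization.AtPrime 𝔪)
          𝔪.primeCompl_le_nonZeroDivisors hab]
      · intro hab
        rw [hσ1 hab]
    have hC : Subring.closure ({Complex.exp (2 * Real.pi * Complex.I / N), (N : ℂ)⁻¹} : Set ℂ) ≤
        emb.range := by
      rw [Subring.closure_le]
      rintro z (rfl | hz)
      · -- the root of unity
        haveI : IsCyclotomicExtension {N} ℚ (CyclotomicField N ℚ) :=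
          CyclotomicField.isCyclotomicExtension N ℚ
        have hζ : IsPrimitiveRoot (IsCyclotomicExtension.zeta N ℚ (CyclotomicField N ℚ)) N :=
          IsCyclotomicExtension.zeta_spec N ℚ (CyclotomicField N ℚ)
        have hζ' : IsPrimitiveRoot (σ (IsCyclotomicExtension.zeta N ℚ (CyclotomicField N ℚ))) N :=
          hζ.map_of_injective σ.injective
        have hexp : (Complex.exp (2 * Real.pi * Complex.I / N)) ^ N = 1 :=
          (Complex.isPrimitiveRoot_exp N (NeZero.ne N)).pow_eq_one
        obtain ⟨i, -, hi⟩ := hζ'.eq_pow_of_pow_eq_one hexp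
        refine ⟨algebraMap _ (Localization.AtPrime 𝔪) (hζ.toInteger ^ i), ?_⟩
        rw [hemb_alg, map_pow, ← hi]
        rfl
      · -- the inverse of `N`
        rw [Set.mem_singleton_iff] at hz
        subst hz
        obtain ⟨u, hu⟩ := IsLocalization.map_units (Localization.AtPrime 𝔪)
          (⟨_, hNm⟩ : 𝔪.primeCompl)
        refine ⟨((u⁻¹ : (Localization.AtPrime 𝔪)ˣ) : Localization.AtPrime 𝔪), ?_⟩
        have h1 : emb (u : Localization.AtPrime 𝔪) = (N : ℂ) := by
          rw [hu, hemb_alg, map_natCast]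
        have h2 : emb ((u⁻¹ : (Localization.AtPrime 𝔪)ˣ) : Localization.AtPrime 𝔪) *
            emb (u : Localization.AtPrime 𝔪) = 1 := by
          rw [← map_mul, Units.inv_mul, map_one]
        rw [h1] at h2
        exact eq_inv_of_mul_eq_one_left h2
    have hℓO : ((ℓ : ℕ) : Localization.AtPrime 𝔪) ∈
        IsLocalRing.maximalIdeal (Localization.AtPrime 𝔪) := by
      have h1 : ((ℓ : ℕ) : Localization.AtPrime 𝔪) =
          algebraMap (𝓞 (CyclotomicField N ℚ)) (Localization.AtPrime 𝔪)
            ((ℓ : ℕ) : 𝓞 (CyclotomicField N ℚ)) := (map_natCast _ _).symm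
      rw [h1, IsLocalization.AtPrime.to_map_mem_maximal_iff (Localization.AtPrime 𝔪) 𝔪]
      exact hℓm
    have hint := h (Localization.AtPrime 𝔪) emb hemb hC hℓO
    -- clear denominators
    obtain ⟨s, hs, hsint⟩ := exists_isIntegralElem_mul_of_isLocalization
      (R := 𝓞 (CyclotomicField N ℚ)) 𝔪.primeCompl _ hint
    have hsJ : s ∈ Jid := by
      rw [hJmem]
      have h1 : (Polynomial.eval₂RingHom ((HahnSeries.C (Γ := ℤ) (R := ℂ)).comp emb) J0)
          (Polynomial.C (algebraMap _ (Localization.AtPrime 𝔪) s)) =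
          HahnSeries.C (σ1 s) := by
        rw [Polynomial.coe_eval₂RingHom, Polynomial.eval₂_C, RingHom.comp_apply, hemb_alg]
      rw [h1] at hsint
      refine isIntegralElem_trans_of_range φ _ ?_ hsint
      intro b
      rw [RingHom.comp_apply, Polynomial.coe_mapRingHom, Polynomial.coe_eval₂RingHom,
        Polynomial.eval₂_map]
      refine isIntegralElem_eval₂ φ _ J0 ?_ hJ0int b
      intro r
      rw [RingHom.comp_apply, RingHom.comp_apply, hemb_alg]
      exact isIntegralElem_C_of_isIntegral φ (hσ1int r)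
    exact hs (hle hsJ)
  -- conclusion
  have h1 : (1 : 𝓞 (CyclotomicField N ℚ)) ∈ Jid := by
    rw [htop]
    exact Submodule.mem_top
  rw [hJmem, map_one, map_one, one_mul] at h1
  exact h1

end Fermat.Agent.S28.H347
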